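import Fermat.Agent.HD.S36Cond
import Fermat.Agent.S36

/-!
# Newforms of level divisible by `q ^ 2` are not unipotent at `q`, conditionally on the geometric
claim
-/

set_option autoImplicit false
set_option linter.unusedSectionVars false
set_option linter.style.haveILetI false

open TensorProduct ModularFormClass CuspForm ModularCurve ModularCurve.Period
open scoped Polynomial

namespace Fermat.Agent.S45A

open Fermat.Agent.GalRep Fermat.Agent.Kum Fermat.Agent.HeckeHom Fermat.Agent.ALCoh Fermat.Agent.HD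

noncomputable section

/-- **ClaimQ**: at level `N` with `Q = q ^ k ‖ N`, `N' = N / q`, invariants under inertia at `q` of
`Hom_par(Γ₀(N), ℤ) / p ^ n` that come from characters killed by the two traces to level `N'` have
bounded exponent. -/
def ClaimQ (ι : AlgebraicClosure ℚ →+* ℂ) (N N' q Q p : ℕ) [NeZero N] [Fact p.Prime] : Prop :=
  ∀ (hN : N' ∣ N) (hQ : Q ∣ N) (hco : Q.Coprime (N / Q)),
  ∃ A : ValuationSubring (AlgebraicClosure ℚ), A.LiesOverPrime q ∧ ∃ C : ℕ, 0 < C ∧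
    ∀ (n : ℕ) (φ : LZ N), (∀ σ ∈ A.inertiaSubgroupIn ℚ,
      rhoF ι (p ^ n) σ (mkX φ : XL N (p ^ n)) = mkX φ) →
      tr hN ℤ φ.1 = 0 → tr hN ℤ (wop hQ hco ℤ φ.1) = 0 → C • (mkX φ : XL N (p ^ n)) = 0

/-- the claim at all levels divisible by `q ^ k`, `k ≥ 2` -/
def ClaimAll (ι : AlgebraicClosure ℚ →+* ℂ) : Prop :=
  ∀ (M₀ q r p k : ℕ) [NeZero (q ^ k * M₀ * r)] [Fact p.Prime], 2 ≤ k → q.Prime → r.Prime →
      r % 12 = 11 → ¬ q ∣ M₀ → ¬ r ∣ q * M₀ → q ≠ p → r ≠ p →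
        ClaimQ ι (q ^ k * M₀ * r) (q ^ (k - 1) * M₀ * r) q (q ^ k) p

/-- the case `k = 2` -/
theorem claimAll_of (ι : AlgebraicClosure ℚ →+* ℂ)
    (h : ∀ (M₀ q r p k : ℕ) [NeZero (q ^ k * M₀ * r)] [Fact p.Prime], 3 ≤ k → q.Prime → r.Prime →
      r % 12 = 11 → ¬ q ∣ M₀ → ¬ r ∣ q * M₀ → q ≠ p → r ≠ p →
        ClaimQ ι (q ^ k * M₀ * r) (q ^ (k - 1) * M₀ * r) q (q ^ k) p) : ClaimAll ι := by
  intro M₀ q r p k _ _ hk hq hr hr12 hqM hrM hqp hrp
  rcases Nat.lt_or_ge 2 k with h3 | h2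
  · exact h M₀ q r p k h3 hq hr hr12 hqM hrM hqp hrp
  · obtain rfl : k = 2 := le_antisymm h2 hk
    have h1 := Fermat.Agent.S36.claim ι M₀ q r p hq hr hr12 hqM hrM hqp hrp
    have e : q ^ (2 - 1) * M₀ * r = q * M₀ * r := by norm_num
    rw [e]
    exact h1

/-- contradiction from unipotent inertia -/
theorem false_of_unipotentQ (ι : AlgebraicClosure ℚ →+* ℂ)
    {M : ℕ} [NeZero M] {g : CuspForm (CongruenceSubgroup.Gamma0 M) 2} (hg : g.IsNewform)
    {p : ℕ} [Fact p.Prime] (hp2 : p ≠ 2) {S : Set ℕ} (hS : S.Finite)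
    {O' : Type} [CommRing O'] [IsDomain O'] [IsDiscreteValuationRing O']
    [IsAdicComplete (IsLocalRing.maximalIdeal O') O'] [CharZero O']
    (hpO : (p : O') ∈ IsLocalRing.maximalIdeal O')
    (chig : heckeAlgebra M 2 S →+* ℂ)
    (hchig : ∀ (ℓ : ℕ) (hℓ : ℓ.Prime) (hℓM : ¬ ℓ ∣ M) (hℓS : ℓ ∉ S),
      chig (heckeAlgebra.T hℓ hℓM hℓS) = qCoeff g ℓ)
    (iota : chig.range →+* O') {t D : GQ → O'}
    (h : IsGoodPseudoRep (IsLocalRing.maximalIdeal O')
      (fun ℓ => (iota.comp chig.rangeRestrict) (heckeFun M S ℓ)) S p (inertiaSet M p) t D)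
    {q r : ℕ} (hr : r.Prime) (hrM : ¬ r ∣ M) (N' : ℕ) [NeZero N']
    [NeZero (M * r)] (hN' : N' ∣ M * r) (hMN' : ¬ M ∣ N') {Q : ℕ} (hQ : Q ∣ M * r)
    (hco : Q.Coprime ((M * r) / Q))
    (hclaim : ClaimQ ι (M * r) N' q Q p)
    (hun : ∀ P : ValuationSubring (AlgebraicClosure ℚ), P.LiesOverPrime q →
      ∀ σ ∈ P.inertiaSubgroupIn ℚ, t σ = 2 ∧ D σ = 1) : False := by
  have hp : p.Prime := Fact.out
  obtain ⟨A, hA, C, hC, hF⟩ := hclaim hN' hQ hco
  -- the finite set of bad primes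
  set S₁ : Set ℕ := S ∪ badSet (M * r) p with hS₁
  have hSS₁ : S ⊆ S₁ := Set.subset_union_left
  have hbad : badSet (M * r) p ⊆ S₁ := Set.subset_union_right
  have hS₁f : S₁.Finite := hS.union (by
    have h0 : M * r * p ≠ 0 := mul_ne_zero (NeZero.ne _) hp.ne_zero
    refine (Set.finite_Iic (M * r * p)).subset fun d hd => ?_
    exact Nat.le_of_dvd (Nat.pos_of_ne_zero h0) hd)
  have hdvd : ∀ d, d ∣ M * r → d ∈ S₁ := fun d hd => hbad (dvd_mul_of_dvd_left hd p)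
  have hNS : ∀ q : ℕ, q.Prime → q ∣ M * r → q ∈ S₁ := fun d _ hd => hdvd d hd
  have hMS₁ : ∀ q : ℕ, q.Prime → q ∣ M → q ∈ S₁ := fun d _ hd =>
    hdvd d (dvd_mul_of_dvd_left hd r)
  have hrS₁ : r ∈ S₁ := hdvd r (dvd_mul_left r M)
  -- the character at level `M * r`
  obtain ⟨ψ₁, hψ₁⟩ := exists_restr (S := S₁) hr hrM hMS₁ hrS₁
  obtain ⟨ψ₂, hψ₂⟩ := exists_incl (M := M) hSS₁
  set ψ : heckeAlgebra (M * r) 2 S₁ →+* heckeAlgebra M 2 S := ψ₂.comp ψ₁ with hψdef
  have hψ : ∀ (l : ℕ) (hl : l.Prime) (hlN : ¬ l ∣ M * r) (hlS : l ∉ S₁) (hlM : ¬ l ∣ M)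
      (hlS' : l ∉ S), ψ (heckeAlgebra.T hl hlN hlS) = heckeAlgebra.T hl hlM hlS' := by
    intro l hl hlN hlS hlM hlS'
    rw [hψdef, RingHom.comp_apply, hψ₁ l hl hlM hlN hlS, hψ₂ l hl hlM hlS hlS']
  set θ : heckeAlgebra (M * r) 2 S₁ →+* ℂ := chig.comp ψ with hθdef
  have hθ : ∀ (l : ℕ) (hl : l.Prime) (hlN : ¬ l ∣ M * r) (hlS : l ∉ S₁),
      θ (heckeAlgebra.T hl hlN hlS) = qCoeff g l := by
    intro l hl hlN hlS
    have hlM : ¬ l ∣ M := fun h => hlN (dvd_mul_of_dvd_left h r)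
    have hlS' : l ∉ S := fun h => hlS (hSS₁ h)
    rw [hθdef, RingHom.comp_apply, hψ l hl hlN hlS hlM hlS', hchig]
  set χ : heckeAlgebra (M * r) 2 S₁ →+* O' := (iota.comp chig.rangeRestrict).comp ψ with hχdef
  -- the killing operator
  obtain ⟨a, ha, hkill⟩ := exists_kill_tr' hg hS₁f hNS θ hθ hN' hMN' hQ hco
  have hχa : χ a ≠ 0 := by
    intro h0
    rw [hχdef, RingHom.comp_apply, RingHom.comp_apply] at h0
    have h6 := (injective_of_range chig iota) (h0.trans (map_zero iota).symm)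
    exact ha (congrArg Subtype.val h6)
  -- the eigenvector
  obtain ⟨ξ, hξ0, hξ⟩ := exists_eigen (O := O') (actL (M * r) S₁) (actL_injective (M * r)) χ
  have h2 : IsUnit (2 : O') := isUnit_two hp hp2 hpO
  have hpu : ¬ IsUnit (p : O') := (IsLocalRing.mem_maximalIdeal _).1 hpO
  let AX : ∀ n : ℕ, sg S₁ → Module.End ℤ (XL (M * r) (p ^ n)) := fun n l =>
    aX (M * r) (p ^ n) (heckeAlgebra.T l.2.1 (fun h => l.2.2 (hNS l l.2.1 h)) l.2.2 :
      heckeAlgebra (M * r) 2 S₁)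
  let lam : sg S₁ → O' := fun l =>
    χ (heckeAlgebra.T l.2.1 (fun h => l.2.2 (hNS l l.2.1 h)) l.2.2)
  have hDcont : ∀ n, IsLocConst (fun g => Ideal.Quotient.mk (IsLocalRing.maximalIdeal O' ^ n)
      (D g)) := by
    intro n
    have h1 : (fun g => Ideal.Quotient.mk (IsLocalRing.maximalIdeal O' ^ n) (D g)) =
        fun g => (((cyc (p ^ n) g).val : ℕ) : O' ⧸ IsLocalRing.maximalIdeal O' ^ n) :=
      funext fun g => h.D_eq n g
    rw [h1]
    exact (isLocConst_cyc (p ^ n)).comp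
      (fun z => ((z.val : ℕ) : O' ⧸ IsLocalRing.maximalIdeal O' ^ n))
  have hpn : ∀ n, ((p ^ n : ℕ) : O') ≠ 0 := fun n =>
    Nat.cast_ne_zero.2 (pow_ne_zero n hp.ne_zero)
  apply hξ0
  refine core (O := O') (L := LZ (M * r)) h2 hpu (X := fun n => XL (M * r) (p ^ n))
    (fun n x => XL_killed x)
    (fun n => (mkX : LZ (M * r) →+ XL (M * r) (p ^ n)).toIntLinearMap)
    (fun n x hx => mkX_eq_zero hx) (fun n => rX ι (M * r) (p ^ n)) (fun n => exists_level_rX ι)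
    AX lam ?_ h.isPseudoRep (fun n => isLocConst_span (hpn n) h.cont)
    (fun n => isLocConst_span (hpn n) hDcont) hS₁f ?_ (I := A.inertiaSubgroupIn ℚ)
    (fun σ hσ => (hun A hA σ hσ).1) (fun σ hσ => (hun A hA σ hσ).2)
    (fun n => C • aX (M * r) (p ^ n) a) (c := (C : O') * χ a)
    (mul_ne_zero (Nat.cast_ne_zero.2 hC.ne') hχa) ?_ ?_ ξ ?_
  · -- commutation
    intro n l σ
    refine LinearMap.ext fun x => ?_
    exact rhoF_act ι hdvd σ _ x
  · -- Frobenius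
    intro l hl hlS P hP τ hτ
    have hlN : ¬ l ∣ M * r := fun h => hlS (hdvd l h)
    have hlM : ¬ l ∣ M := fun h => hlN (dvd_mul_of_dvd_left h r)
    have hlS' : l ∉ S := fun h => hlS (hSS₁ h)
    refine ⟨⟨l, hl, hlS⟩, ?_, (h.frobenius l hl hlS' P hP τ hτ).2, fun n x => ?_⟩
    · rw [(h.frobenius l hl hlS' P hP τ hτ).1, heckeFun_eq hl hlM hlS']
      change χ (heckeAlgebra.T hl hlN hlS) = _
      rw [hχdef, RingHom.comp_apply, hψ l hl hlN hlS hlM hlS']
    · exact rX_frob ι hl hlN hlS (fun h => hlS (hbad (dvd_mul_of_dvd_right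
        (hl.dvd_of_dvd_pow h) (M * r)))) hP hτ x
  · -- killing of invariants
    intro n x hx
    obtain ⟨φ, rfl⟩ := mkX_surjective x
    rw [LinearMap.smul_apply, aX_apply, actX_mkX]
    refine hF n _ (fun σ hσ => ?_) (hkill φ).1 (hkill φ).2
    rw [← actX_mkX, rhoF_act ι hdvd σ a]
    congr 1
    exact hx σ hσ
  · -- action on eigenvectors
    intro n y hy
    have h1 := baseChange_aX hNS χ y (fun l => hy l) a
    rw [show (C • aX (M * r) (p ^ n) a : Module.End ℤ (XL (M * r) (p ^ n))) =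
      (C : ℤ) • aX (M * r) (p ^ n) a from (natCast_zsmul _ _).symm, LinearMap.baseChange_smul,
      LinearMap.smul_apply, h1, mul_smul, natCast_zsmul, Nat.cast_smul_eq_nsmul]
  · -- the eigenvector
    intro n l
    have h1 := hξ (heckeAlgebra.T l.2.1 (fun h => l.2.2 (hNS l l.2.1 h)) l.2.2)
    rw [← map_smul, ← h1, ← LinearMap.comp_apply, ← LinearMap.comp_apply,
      ← LinearMap.baseChange_comp, ← LinearMap.baseChange_comp]
    rfl

/-- **S36 for all powers**, conditionally on the geometric claim. -/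
theorem s36k_of_claim (ι : AlgebraicClosure ℚ →+* ℂ) (hclaim : ClaimAll ι)
    {M : ℕ} [NeZero M] {g : CuspForm (CongruenceSubgroup.Gamma0 M) 2} (hg : g.IsNewform)
    (lam : ℕ) [Fact lam.Prime]
    (S : Finset ℕ)
    (O' : Type) [CommRing O'] [IsDomain O'] [IsDiscreteValuationRing O']
    [IsAdicComplete (IsLocalRing.maximalIdeal O') O'] [Finite (IsLocalRing.ResidueField O')]
    [CharZero O'] (hlamO' : (lam : O') ∈ IsLocalRing.maximalIdeal O')
    (hlam2 : lam ≠ 2)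
    (chig : CuspForm.heckeAlgebra M 2 (↑S : Set ℕ) →+* ℂ)
    (hchig : ∀ (ℓ : ℕ) (hℓ : ℓ.Prime) (hℓM : ¬ ℓ ∣ M) (hℓS : ℓ ∉ (↑S : Set ℕ)),
      chig (CuspForm.heckeAlgebra.T hℓ hℓM hℓS) = ModularFormClass.qCoeff g ℓ)
    (iota : chig.range →+* O')
    (hlamS : lam ∈ S) (hMS : ∀ q : ℕ, q.Prime → q ∣ M → q ∈ S) :
    ∃ (O'' : Type) (_ : CommRing O'') (_ : IsDomain O'') (_ : IsDiscreteValuationRing O'')
      (_ : IsAdicComplete (IsLocalRing.maximalIdeal O'') O'') (_ : Finite (IsLocalRing.ResidueField O''))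
      (_ : CharZero O'') (_ : Algebra O' O'') (_ : Module.Finite O' O'') (_ : IsLocalHom (algebraMap O' O'')),
      Function.Injective (algebraMap O' O'') ∧
      ∃ ρ : GaloisRepAdic O'',
        (∀ (ℓ : ℕ) (hℓ : ℓ.Prime) (hℓM : ¬ ℓ ∣ M) (hℓS : ℓ ∉ (↑S : Set ℕ)),
          ∀ A : ValuationSubring (AlgebraicClosure ℚ), A.LiesOverPrime ℓ →
            ∀ σ : AlgebraicClosure ℚ ≃ₐ[ℚ] AlgebraicClosure ℚ, A.IsFrobeniusAt σ ℓ →
              LinearMap.charpoly (ρ.ρ σ) =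
                Polynomial.X ^ 2 - Polynomial.C (algebraMap O' O'' ((iota.comp chig.rangeRestrict)
                  (CuspForm.heckeAlgebra.T hℓ hℓM hℓS))) * Polynomial.X
                  + Polynomial.C ((ℓ : O''))) ∧
        (∀ q : ℕ, q.Prime → q ≠ lam → 2 ≤ M.factorization q → ¬ ρ.IsUnipotentOnInertiaAt q) := by
  have hMS' : ∀ q : ℕ, q.Prime → q ∣ M → q ∈ (↑S : Set ℕ) := hMS
  obtain ⟨t, D, h⟩ := exists_goodPseudoRep_hecke (Kum.hasBGM M lam) S.finite_toSet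
    (Finset.mem_coe.2 hlamS) hMS' hlamO' (iota.comp chig.rangeRestrict)
  obtain ⟨ρ, h1, -⟩ := h.exists_galoisRepAdic two_ne_zero
  refine ⟨O', inferInstance, inferInstance, inferInstance, inferInstance, inferInstance,
    inferInstance, Algebra.id O', inferInstance, ⟨fun a ha => ha⟩, fun _ _ h => h, ρ, ?_, ?_⟩
  · intro ℓ hℓ hℓN hℓS A hA σ hσ
    obtain ⟨h3, h4⟩ := h.frobenius ℓ hℓ hℓS A hA σ hσ
    rw [h1, h3, h4, heckeFun_eq hℓ hℓN hℓS]
    rfl
  · intro q hq hqlam hqM2 hun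
    have hM0 : M ≠ 0 := NeZero.ne M
    -- decomposition of the level
    obtain ⟨k, hk, hqM⟩ : ∃ k, 1 ≤ k ∧ M.factorization q = k + 1 :=
      ⟨M.factorization q - 1, by omega, by omega⟩
    obtain ⟨M₀, hM, hqM₀⟩ : ∃ M₀, M = q ^ (k + 1) * M₀ ∧ ¬ q ∣ M₀ := by
      refine ⟨M / q ^ (k + 1), ?_, ?_⟩
      · have h3 := Nat.ordProj_mul_ordCompl_eq_self M q
        rw [hqM] at h3
        exact h3.symm
      · have h3 := Nat.not_dvd_ordCompl hq hM0
        rwa [hqM] at h3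
    -- the auxiliary prime
    obtain ⟨r, hrM, hr, hr11⟩ := Nat.forall_exists_prime_gt_and_eq_mod
      (q := 12) (a := 11) (by decide) (M * lam)
    have hr12 : r % 12 = 11 := by
      have : ((r : ℕ) : ZMod 12) = ((11 : ℕ) : ZMod 12) := by rw [hr11]; rfl
      exact (ZMod.natCast_eq_natCast_iff' r 11 12).1 this
    have hlam : lam.Prime := Fact.out
    have hrM' : ¬ r ∣ M := by
      intro hd
      have h3 := Nat.le_of_dvd (Nat.pos_of_ne_zero hM0) hd
      have h4 : M * 1 ≤ M * lam := Nat.mul_le_mul_left M hlam.one_le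
      omega
    have hrlam : r ≠ lam := by
      rintro rfl
      have h4 : 1 * r ≤ M * r := Nat.mul_le_mul_right r (Nat.pos_of_ne_zero hM0)
      omega
    have hqr : r ≠ q := by
      rintro rfl
      apply hrM'
      rw [hM]
      exact dvd_mul_of_dvd_left (dvd_pow_self r (Nat.succ_ne_zero k)) M₀
    haveI : NeZero (M * r) := ⟨mul_ne_zero hM0 hr.ne_zero⟩
    have hM₀0 : M₀ ≠ 0 := by
      rintro rfl
      rw [mul_zero] at hM
      exact hM0 hM
    haveI : NeZero (q ^ k * M₀ * r) :=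
      ⟨mul_ne_zero (mul_ne_zero (pow_ne_zero k hq.ne_zero) hM₀0) hr.ne_zero⟩
    have hclaim' : ClaimQ ι (M * r) (q ^ k * M₀ * r) q (q ^ (k + 1)) lam := by
      subst hM
      refine hclaim M₀ q r lam (k + 1) (by omega) hq hr hr12 hqM₀ (fun hd => hrM' ?_) hqlam hrlam
      rw [pow_succ, mul_assoc]
      exact dvd_mul_of_dvd_right hd _
    refine false_of_unipotentQ ι hg hlam2 S.finite_toSet hlamO' chig hchig iota h hr hrM'
      (q ^ k * M₀ * r) ?_ ?_ ?_ ?_ hclaim' ?_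
    · exact ⟨q, by rw [hM]; ring⟩
    · rw [hM]
      intro hd
      have h3 : q ∣ r * M₀ := by
        have h4 : q ^ k * M₀ * r = q ^ k * (r * M₀) := by ring
        have h6 : q ^ (k + 1) * M₀ = q ^ k * (q * M₀) := by ring
        have h5 : q ^ k * (q * M₀) ∣ q ^ k * (r * M₀) := h4 ▸ h6 ▸ hd
        exact (dvd_mul_right q M₀).trans (Nat.dvd_of_mul_dvd_mul_left (pow_pos hq.pos k) h5)
      rcases hq.dvd_mul.1 h3 with h4 | h4
      · exact hqr ((Nat.prime_dvd_prime_iff_eq hq hr).1 h4).symm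
      · exact hqM₀ h4
    · rw [hM, mul_assoc]
      exact dvd_mul_right _ _
    · have h3 : M * r / q ^ (k + 1) = M₀ * r := by
        rw [hM, mul_assoc]
        exact Nat.mul_div_cancel_left _ (pow_pos hq.pos _)
      rw [h3]
      refine Nat.Coprime.pow_left _ ?_
      rw [Nat.Prime.coprime_iff_not_dvd hq]
      intro hd
      rcases hq.dvd_mul.1 hd with h4 | h4
      · exact hqM₀ h4
      · exact hqr ((Nat.prime_dvd_prime_iff_eq hq hr).1 h4).symm
    · intro P hP σ hσ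
      have h3 := hun P hP σ hσ
      rw [h1 σ] at h3
      have e0 := congrArg (Polynomial.eval 0) h3
      have e1 := congrArg (Polynomial.eval 1) h3
      simp at e0 e1
      refine ⟨?_, e0⟩
      rw [e0] at e1
      linear_combination -e1

end

end Fermat.Agent.S45A
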