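import Fermat.Agent.S45A.Lev
import Fermat.Agent.S43
import Fermat.Agent.S44
import Fermat.Agent.S05
import Fermat.Agent.Maz12.Sym
import Fermat.Prelude.Def_FreyPackage_IsConductorLevel

/-!
# S45 from the geometric claim
-/

set_option autoImplicit false
set_option linter.unusedSectionVars false
set_option linter.style.haveILetI false

namespace Fermat.Agent.S45A

open WeierstrassCurve ModularFormClass CuspForm Polynomial IsLocalRing
open WeierstrassCurve.Affine WeierstrassCurve.Affine.Point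
open Fermat.Agent.GalRep Fermat.Agent.AL Fermat.Agent.MFLib Fermat.Agent.Eigen Fermat.Agent.CL

noncomputable section

local notation "Qb" => AlgebraicClosure ℚ

/-- **two integral models have the same traces at common good primes** -/
theorem ap_eq_models {E : WeierstrassCurve ℚ} [E.IsElliptic] {W W' : WeierstrassCurve ℤ}
    (hW : W.IsIntegralModelOf E) (hW' : W'.IsIntegralModelOf E) {ℓ : ℕ} (hℓ : ℓ.Prime)
    (hg : W.IsGoodPrimeFor ℓ) (hg' : W'.IsGoodPrimeFor ℓ) : W.apOfModel ℓ = W'.apOfModel ℓ := by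
  haveI : Fact ℓ.Prime := ⟨hℓ⟩
  obtain ⟨n, hn1, hn⟩ := Nat.exists_infinite_primes
    ((W.apOfModel ℓ - W'.apOfModel ℓ).natAbs + ℓ + 3)
  haveI : Fact n.Prime := ⟨hn⟩
  have hn2 : n ≠ 2 := by omega
  have hodd : Odd n := hn.odd_of_ne_two hn2
  have hnl : ¬ ℓ ∣ n := fun hd => by
    have := (Nat.prime_dvd_prime_iff_eq hℓ hn).1 hd
    omega
  obtain ⟨A, hA⟩ := Places.exists_liesOverPrime Qb hℓ
  obtain ⟨σ, hσ⟩ := Places.exists_isFrobeniusAt A hℓ hA
  have hcard : Nat.card (Submodule.torsionBy ℤ (E⁄Qb).Point (n : ℕ)) = n ^ 2 :=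
    EC.card_torsionBy E hodd
  have hnt : Nontrivial (Submodule.torsionBy ℤ (E⁄Qb).Point (n : ℕ)) := by
    haveI : Finite (Submodule.torsionBy ℤ (E⁄Qb).Point (n : ℕ)) :=
      Nat.finite_of_card_ne_zero (by rw [hcard]; exact pow_ne_zero 2 hn.ne_zero)
    rw [← Finite.one_lt_card_iff_nontrivial, hcard]
    exact Nat.one_lt_pow two_ne_zero hn.one_lt
  obtain ⟨P, hP0⟩ := exists_ne (0 : Submodule.torsionBy ℤ (E⁄Qb).Point (n : ℕ))
  have hP : n • (P : (E⁄Qb).Point) = 0 := by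
    have := (Submodule.mem_torsionBy_iff ((n : ℕ) : ℤ) (P : (E⁄Qb).Point)).mp P.2
    rwa [natCast_zsmul] at this
  have h1 := EC.frobenius_rel_of_model hW hg hA hσ hodd hnl hP
  have h2 := EC.frobenius_rel_of_model hW' hg' hA hσ hodd hnl hP
  have h3 : (W.apOfModel ℓ - W'.apOfModel ℓ) • σ • (P : (E⁄Qb).Point) = 0 := by
    rw [sub_smul]
    have h4 := congrArg₂ (fun x y => y - x) h1 h2
    simp only [sub_zero] at h4
    rw [← h4]
    abel
  have hQ0 : σ • (P : (E⁄Qb).Point) ≠ 0 := by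
    intro h0
    apply hP0
    have h5 : σ • (P : (E⁄Qb).Point) = σ • (0 : (E⁄Qb).Point) := h0.trans rfl
    exact Subtype.ext (MulAction.injective σ h5)
  have hQn : n • (σ • (P : (E⁄Qb).Point)) = 0 := by
    have h9 := algEquiv_smul_zsmul (S := ℚ) (K := Qb) σ (n : ℤ) (P : (E⁄Qb).Point)
    rw [natCast_zsmul, natCast_zsmul, hP, smul_zero] at h9
    exact h9.symm
  have hord : addOrderOf (σ • (P : (E⁄Qb).Point)) = n := addOrderOf_eq_prime hQn hQ0
  have hdvd : (n : ℤ) ∣ W.apOfModel ℓ - W'.apOfModel ℓ := by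
    rw [← hord]
    exact addOrderOf_dvd_iff_zsmul_eq_zero.2 h3
  by_contra hne
  have h6 : W.apOfModel ℓ - W'.apOfModel ℓ ≠ 0 := sub_ne_zero.2 hne
  have h7 := Int.natAbs_dvd_natAbs.2 hdvd
  rw [Int.natAbs_natCast] at h7
  have h8 := Nat.le_of_dvd (Int.natAbs_pos.2 h6) h7
  omega

theorem model_Δ_ne {E : WeierstrassCurve ℚ} (hE : E.Δ ≠ 0) {W : WeierstrassCurve ℤ}
    (hW : W.IsIntegralModelOf E) : W.Δ ≠ 0 := by
  obtain ⟨C, hC⟩ := hW
  intro h0
  have h1 : (W.map (Int.castRingHom ℚ)).Δ = 0 := by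
    rw [WeierstrassCurve.map_Δ, h0, _root_.map_zero]
  rw [← hC, WeierstrassCurve.variableChange_Δ] at h1
  rcases mul_eq_zero.1 h1 with h2 | h2
  · exact C.u⁻¹.ne_zero ((pow_eq_zero_iff (by norm_num)).1 h2)
  · exact hE h2

variable (P : FreyPackage)

theorem frey_model : P.freyCurveInt.IsIntegralModelOf P.freyCurve :=
  ⟨1, by rw [one_smul]; exact EC.freyCurve_eq_map P⟩

theorem frey_dvd {q : ℕ} (hq : q.Prime) (h : (q : ℤ) ∣ P.freyCurveInt.Δ) :
    (q : ℤ) ∣ P.a * P.b * P.c := by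
  have hqi := Nat.prime_iff_prime_int.mp hq
  have h1 : (q : ℤ) ∣ (P.a ^ P.p * P.b ^ P.p * P.c ^ P.p) ^ 2 := by
    rw [← Maz12.int_Δ P]
    exact h.mul_right _
  have h2 := hqi.dvd_of_dvd_pow h1
  rw [← mul_pow, ← mul_pow] at h2
  exact hqi.dvd_of_dvd_pow h2

theorem frey_ss : P.freyCurveInt.IsSemistableModel := fun q hq h =>
  Maz12.not_dvd_c4 P hq (frey_dvd P hq h)

theorem frey_cond : P.IsConductorLevel P.freyCurveInt.conductorLevel where
  pos := P.freyCurveInt.conductorLevel_pos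
  squarefree := P.freyCurveInt.squarefree_conductorLevel
  support q hq hd := frey_dvd P hq
    ((P.freyCurveInt.prime_dvd_conductorLevel_iff (Maz12.int_Δ_ne P) hq).1 hd)

/-- **the Frey curve is residually modular at the conductor level** -/
theorem frey_mod (ι : AlgebraicClosure ℚ →+* ℂ) (hclaim : ClaimAll ι)
    (hmod : P.freyCurve.IsModular) : P.ModularRepOfLevel P.freyCurveInt.conductorLevel := by
  haveI : P.freyCurve.IsElliptic := by
    rw [WeierstrassCurve.isElliptic_iff, isUnit_iff_ne_zero]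
    exact EC.frey_Δ_ne P
  obtain ⟨W, hW, N, hN, f, hf, hfW⟩ := hmod
  have hWΔ : W.Δ ≠ 0 := model_Δ_ne (EC.frey_Δ_ne P) hW
  have hΔ := Maz12.int_Δ_ne P
  obtain ⟨N', hN'⟩ : ∃ N', N' = N * W.Δ.natAbs * P.freyCurveInt.Δ.natAbs := ⟨_, rfl⟩
  have hN'0 : N' ≠ 0 := by
    rw [hN']
    exact mul_ne_zero (mul_ne_zero hN.ne' (Int.natAbs_ne_zero.2 hWΔ)) (Int.natAbs_ne_zero.2 hΔ)
  haveI : NeZero N' := ⟨hN'0⟩
  obtain ⟨h, hh, hhf⟩ := exists_at_level (M := N) (N := N') (by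
    rw [hN', mul_assoc]
    exact dvd_mul_right _ _) hf
  have hmod' : P.freyCurveInt.IsModularModelOfLevel N' := by
    refine ⟨h, hh, fun l hl hg hlN => ?_⟩
    have h1 : ¬ l ∣ N := fun hd => hlN (by rw [hN']; exact (hd.mul_right _).mul_right _)
    have h2 : W.IsGoodPrimeFor l := fun hd => hlN (by
      rw [hN']
      exact ((Int.natCast_dvd.1 hd).mul_left _).mul_right _)
    rw [hhf l hl hlN, hfW l hl h2 h1, ap_eq_models hW (frey_model P) hl h2 hg]
  have hc := cond_of_level ι hclaim P.freyCurveInt (frey_ss P) N' hN'0 hmod' (fun l hl hd => by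
    rw [hN']
    exact (Int.natCast_dvd.1 hd).mul_left _)
  obtain ⟨g, hg, hgW⟩ := hc
  obtain ⟨𝔪, h𝔪, hp𝔪⟩ := FLTPrelim.exists_maximalIdeal_natCast_prime_mem P.pp
  refine ⟨g, P.freyCurveInt, 𝔪, hg, frey_model P, h𝔪, hp𝔪, fun l hl hgl hlN hlp => ?_⟩
  refine ⟨((P.freyCurveInt.apOfModel l : ℤ) : integralClosure ℤ ℂ), ?_, ?_⟩
  · rw [hgW l hl hgl hlN]
    push_cast
    rfl
  · rw [sub_self]
    exact 𝔪.zero_mem

/-- lowering to level two -/
theorem lower_two (hirr : GaloisRepIsIrreducible (K := AlgebraicClosure ℚ) ℚ P.freyCurve P.p) :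
    ∀ N : ℕ, P.IsConductorLevel N → P.ModularRepOfLevel N →
      ∃ M : ℕ, M ∣ 2 ∧ P.ModularRepOfLevel M := by
  intro N
  induction N using Nat.strong_induction_on with
  | _ N ih =>
    intro hcond hmod
    by_cases h2 : ∃ q, q.Prime ∧ q ∣ N ∧ q ≠ 2
    · obtain ⟨q, hq, hqN, hq2⟩ := h2
      obtain ⟨M, hMN, hqM, hM⟩ : ∃ M : ℕ, M ∣ N ∧ ¬ q ∣ M ∧ P.ModularRepOfLevel M := by
        by_cases hqp : q = P.p
        · rw [hqp]
          exact Fermat.Agent.S44.result P hcond (hqp ▸ hqN) hirr hmod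
        · exact Fermat.Agent.S43.result P hcond hq hq2 hqp hqN hirr hmod
            (Fermat.Agent.S05.result P hq hq2 hqp)
      have hM0 : 0 < M := Nat.pos_of_dvd_of_pos hMN hcond.pos
      have hlt : M < N := lt_of_le_of_ne (Nat.le_of_dvd hcond.pos hMN)
        (fun he => hqM (he ▸ hqN))
      exact ih M hlt (hcond.of_dvd hMN hM0) hM
    · push Not at h2
      refine ⟨N, ?_, hmod⟩
      rw [← Nat.prod_primeFactors_of_squarefree hcond.squarefree]
      refine Finset.prod_primes_dvd _ (fun q hq => (Nat.prime_of_mem_primeFactors hq).prime)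
        fun q hq => ?_
      rw [h2 q (Nat.prime_of_mem_primeFactors hq) (Nat.dvd_of_mem_primeFactors hq)]

/-- **S45 from the geometric claim.** -/
theorem s45_of_claim (ι : AlgebraicClosure ℚ →+* ℂ) (hclaim : ClaimAll ι)
    (hmod : P.freyCurve.IsModular)
    (hirr : GaloisRepIsIrreducible (K := AlgebraicClosure ℚ) ℚ P.freyCurve P.p) :
    ∃ f : CuspForm (CongruenceSubgroup.Gamma0 2) 2, f ≠ 0 := by
  obtain ⟨M, hM, f, -, -, hf, -⟩ := lower_two P hirr _ (frey_cond P) (frey_mod P ι hclaim hmod)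
  obtain ⟨h, hh, -⟩ := exists_at_level (N := 2) hM hf
  exact ⟨h, hh.ne_zero⟩

end

end Fermat.Agent.S45A
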