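import Fermat.Agent.S45A.Cond
import Fermat.Agent.CL.Main

/-!
# From modularity of any level to the conductor level
-/

set_option autoImplicit false
set_option linter.unusedSectionVars false
set_option linter.style.haveILetI false

namespace Fermat.Agent.S45A

open WeierstrassCurve ModularFormClass CuspForm Polynomial IsLocalRing
open Fermat.Agent.GalRep Fermat.Agent.AL Fermat.Agent.MFLib Fermat.Agent.Eigen Fermat.Agent.CL

noncomputable section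

section

variable {W : WeierstrassCurve ℤ} {N M : ℕ} [NeZero N] [NeZero M]
  {g : CuspForm (CongruenceSubgroup.Gamma0 M) 2}

/-- **no prime `q ≠ p` divides the level more than once** -/
theorem no_squareK (ι : AlgebraicClosure ℚ →+* ℂ) (hclaim : ClaimAll ι) (hΔ : W.Δ ≠ 0) (hss : W.IsSemistableModel)
    (hbad : ∀ ℓ : ℕ, ℓ.Prime → (ℓ : ℤ) ∣ W.Δ → ℓ ∣ N)
    (hMN : M ∣ N) (hg : g.IsNewform)
    (hgW : ∀ l : ℕ, l.Prime → ¬ l ∣ N → qCoeff g l = ((W.apOfModel l : ℤ) : ℂ))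
    {p : ℕ} [hp : Fact p.Prime] (hp2 : p ≠ 2) {q : ℕ}
    (hq : q.Prime) (hqp : q ≠ p) (hfac : 2 ≤ M.factorization q) : False := by
  classical
  have hN0 : N ≠ 0 := NeZero.ne N
  have hM0 : M ≠ 0 := NeZero.ne M
  let S : Finset ℕ := insert p M.primeFactors
  have hpS : p ∈ S := Finset.mem_insert_self _ _
  have hMS : ∀ q : ℕ, q.Prime → q ∣ M → q ∈ S := fun q hq hqM =>
    Finset.mem_insert_of_mem (Nat.mem_primeFactors.2 ⟨hq, hqM, hM0⟩)
  obtain ⟨O', i1, i2, i3, i4, i5, i6, hO', ⟨iota⟩⟩ := exists_iota hg.1 (↑S : Set ℕ) p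
  let S₁ : Set ℕ := {l | l ∣ N} ∪ {p}
  have hS₁ : S₁.Finite := Set.Finite.union
    ((Finset.finite_toSet (Nat.divisors N)).subset fun r hr =>
      Finset.mem_coe.2 (Nat.mem_divisors.2 ⟨hr, hN0⟩)) (Set.finite_singleton p)
  have hnot : ∀ ℓ : ℕ, ℓ.Prime → ℓ ∉ S₁ → ¬ ℓ ∣ M ∧ ℓ ∉ (↑S : Set ℕ) ∧ ¬ ℓ ∣ N ∧ ℓ ≠ p := by
    intro ℓ hℓ h
    have h1 : ¬ ℓ ∣ N := fun hd => h (Or.inl hd)
    have h2 : ℓ ≠ p := fun he => h (Or.inr he)
    refine ⟨fun hd => h1 (hd.trans hMN), fun hmem => ?_, h1, h2⟩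
    rw [Finset.mem_coe, Finset.mem_insert, Nat.mem_primeFactors] at hmem
    rcases hmem with h3 | h3
    · exact h2 h3
    · exact h1 (h3.2.1.trans hMN)
  have hpp : ∀ (O'' : Type) [CommRing O''] [IsLocalRing O''] [Algebra O' O'']
      [IsLocalHom (algebraMap O' O'')], (p : O'') ∈ maximalIdeal O'' := by
    intro O'' _ _ _ _
    rw [← map_natCast (algebraMap O' O''), IsLocalRing.mem_maximalIdeal]
    rw [IsLocalRing.mem_maximalIdeal] at hO'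
    exact fun h => hO' ((isUnit_map_iff (algebraMap O' O'') (p : O')).mp h)
  obtain ⟨O'', j1, j2, j3, j4, j5, j6, j7, j8, j9, hinj, ρ, hρ, hρq⟩ :=
    s36k_of_claim ι hclaim hg p S O' hO' hp2 (eigenChar hg.1 (↑S : Set ℕ))
      (fun ℓ hℓ hℓM hℓS => eigenChar_T hg.1 hℓ hℓM hℓS) iota hpS hMS
  have hρW : ∀ ℓ : ℕ, ℓ.Prime → ℓ ∉ S₁ → ∀ P : ValuationSubring (AlgebraicClosure ℚ),
      P.LiesOverPrime ℓ → ∀ σ : GQ, P.IsFrobeniusAt σ ℓ →
        LinearMap.charpoly (ρ.ρ σ) = X ^ 2 - C ((W.apOfModel ℓ : ℤ) : O'') * X + C ((ℓ : O'')) := by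
    intro ℓ hℓ hℓS P hP σ hσ
    obtain ⟨h1, h2, h3, h4⟩ := hnot ℓ hℓ hℓS
    rw [hρ ℓ hℓ h1 h2 P hP σ hσ,
      (val_iff hg.1 hinj iota hℓ h1 h2 (W.apOfModel ℓ)).2 (hgW ℓ hℓ h3)]
  obtain ⟨t, D, hch, hdet, hD, hin, -⟩ := compare hΔ hp2 (hpp O'') hS₁ (Or.inr rfl)
    (fun ℓ hℓ hd => Or.inl (hbad ℓ hℓ hd)) ρ hρW
  apply hρq q hq hqp hfac
  intro A hA σ hσ
  obtain ⟨h1, h2⟩ := hin q hq hqp (hss q hq) A hA σ hσ
  rw [hch σ, h1, h2]
  have e2 : (C (2 : O'') : O''[X]) = 2 := by rw [map_ofNat]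
  rw [e2, C_1]
  ring

end

/-- **Modularity of any level implies modularity of the conductor level.** -/
theorem cond_of_level (ι : AlgebraicClosure ℚ →+* ℂ) (hclaim : ClaimAll ι)
    (W : WeierstrassCurve ℤ) (hss : W.IsSemistableModel) (N : ℕ) (hN0 : N ≠ 0)
    (hN : W.IsModularModelOfLevel N) (hbad : ∀ ℓ : ℕ, ℓ.Prime → (ℓ : ℤ) ∣ W.Δ → ℓ ∣ N) :
    W.IsModularModelOfLevel W.conductorLevel := by
  haveI : NeZero N := ⟨hN0⟩
  have hΔ : W.Δ ≠ 0 := by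
    intro h0
    obtain ⟨ℓ, hℓN, hℓ⟩ := Nat.exists_infinite_primes (N + 1)
    have := Nat.le_of_dvd (Nat.pos_of_ne_zero hN0) (hbad ℓ hℓ (by rw [h0]; exact dvd_zero _))
    omega
  obtain ⟨f, hf, hfW⟩ := hN
  obtain ⟨M, hMN, g, hg, hgf⟩ := exists_newform N f hf
  have hM0 : M ≠ 0 := by rintro rfl; exact hN0 (Nat.eq_zero_of_zero_dvd hMN)
  haveI : NeZero M := ⟨hM0⟩
  have hgW : ∀ l : ℕ, l.Prime → ¬ l ∣ N → qCoeff g l = ((W.apOfModel l : ℤ) : ℂ) := by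
    intro l hl hlN
    rw [hgf l hl hlN, hfW l hl (fun hd => hlN (hbad l hl hd)) hlN]
  -- the auxiliary prime
  have haux : ∀ q : ℕ, ∃ lam : ℕ, lam.Prime ∧ lam ≠ 2 ∧ q ≠ lam := by
    intro q
    by_cases h3 : q = 3
    · exact ⟨5, Nat.prime_five, by norm_num, by rw [h3]; norm_num⟩
    · exact ⟨3, Nat.prime_three, by norm_num, h3⟩
  have hF : ∀ q : ℕ, q.Prime → ¬ (q : ℤ) ∣ W.Δ → ¬ q ∣ M →
      qCoeff g q = ((W.apOfModel q : ℤ) : ℂ) := by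
    intro q hq hd hqM
    obtain ⟨lam, hlam, hl2, hne⟩ := haux q
    haveI : Fact lam.Prime := ⟨hlam⟩
    exact (coeff_good hΔ hbad hMN hg hgW hl2).1 q hq hne hd hqM
  have hsqM : ∀ q : ℕ, q.Prime → ¬ q ^ 2 ∣ M := by
    intro q hq h2
    obtain ⟨lam, hlam, hl2, hne⟩ := haux q
    haveI : Fact lam.Prime := ⟨hlam⟩
    exact no_squareK ι hclaim hΔ hss hbad hMN hg hgW hl2 hq hne
      ((hq.pow_dvd_iff_le_factorization hM0).1 h2)
  have hbadM : ∀ q : ℕ, q.Prime → q ∣ M → (q : ℤ) ∣ W.Δ := by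
    intro q hq hqM
    by_contra hd
    obtain ⟨lam, hlam, hl2, hne⟩ := haux q
    haveI : Fact lam.Prime := ⟨hlam⟩
    exact (coeff_good hΔ hbad hMN hg hgW hl2).2 q hq hne hd hqM (hsqM q hq)
  have hMsq : Squarefree M := Nat.squarefree_iff_prime_squarefree.2 fun q hq h =>
    hsqM q hq (by rw [sq]; exact h)
  have hMc : M ∣ W.conductorLevel := by
    rw [← Nat.prod_primeFactors_of_squarefree hMsq]
    refine Finset.prod_primes_dvd _ (fun q hq => (Nat.prime_of_mem_primeFactors hq).prime)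
      fun q hq => ?_
    exact (W.prime_dvd_conductorLevel_iff hΔ (Nat.prime_of_mem_primeFactors hq)).2
      (hbadM q (Nat.prime_of_mem_primeFactors hq) (Nat.dvd_of_mem_primeFactors hq))
  obtain ⟨h, hh, hhg⟩ := exists_at_level hMc hg.1
  refine ⟨h, hh, fun q hq hd hqc => ?_⟩
  rw [hhg q hq hqc]
  exact hF q hq hd (fun hqM => hqc (hqM.trans hMc))

end

end Fermat.Agent.S45A
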